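import Fermat.Agent.LT.T3.H315.AbelCut

/-!
# Row LT, tower T3, sub-leaf AS.2.4a `CartanC` (registry 1172) -- helper203

OFF-MAIN.  `cartanC203 : Fermat.Agent.LT.T3.H315.CartanC` (VERBATIM the Prop of
`LT/T3/H315/AbelCut.lean`, helper315@4ea336ee2, sha256 446d055e): every `h ∈ GL₂(ℂ)` is
`k₁ · torus(d) · (r · 1) · k₂` with `k₁, k₂ ∈ U(2)`, `d ≥ 0`, `r > 0`, `cosh d = chD614 h`.

Proof: singular value decomposition from the spectral theorem of Mathlib for `hᴴ h`
(`Matrix.IsHermitian.spectral_theorem`), ordering of the two singular values by the swap matrix.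
-/

set_option autoImplicit false

open Matrix
open scoped ComplexOrder
open Fermat.Agent.LT.H556.A0 Fermat.Agent.LT.T3.AS Fermat.Agent.LT.T3.H614
open Fermat.Agent.LT.T3.H315

noncomputable section

namespace Fermat.Agent.LT.T3.H203

/-- Singular value decomposition of an invertible `2 × 2` complex matrix (unordered). -/
theorem exists_svd203 (M : Matrix (Fin 2) (Fin 2) ℂ) (hM : M.det ≠ 0) :
    ∃ (W V : Matrix (Fin 2) (Fin 2) ℂ) (s : Fin 2 → ℝ), W * Wᴴ = 1 ∧ V * Vᴴ = 1 ∧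
      (∀ i, 0 < s i) ∧ M = W * diagonal (fun i => ((s i : ℝ) : ℂ)) * V := by
  classical
  have hunit : IsUnit M := (Matrix.isUnit_iff_isUnit_det M).2 (isUnit_iff_ne_zero.2 hM)
  have hinj : Function.Injective M.mulVec := Matrix.mulVec_injective_iff_isUnit.2 hunit
  have hpd : (Mᴴ * M).PosDef := Matrix.PosDef.conjTranspose_mul_self M hinj
  have hA : (Mᴴ * M).IsHermitian := hpd.1
  set U : Matrix (Fin 2) (Fin 2) ℂ := (hA.eigenvectorUnitary : Matrix (Fin 2) (Fin 2) ℂ) with hU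
  have hUU : U * star U = 1 := Unitary.coe_mul_star_self hA.eigenvectorUnitary
  have hUU' : star U * U = 1 := Unitary.coe_star_mul_self hA.eigenvectorUnitary
  have hspec : Mᴴ * M = U * diagonal (fun i => ((hA.eigenvalues i : ℝ) : ℂ)) * star U := by
    have := hA.spectral_theorem
    rw [Unitary.conjStarAlgAut_apply] at this
    exact this
  have hpos : ∀ i, 0 < hA.eigenvalues i := fun i => hpd.eigenvalues_pos i
  set s : Fin 2 → ℝ := fun i => Real.sqrt (hA.eigenvalues i) with hs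
  have hspos : ∀ i, 0 < s i := fun i => Real.sqrt_pos.2 (hpos i)
  have hsne : ∀ i, ((s i : ℝ) : ℂ) ≠ 0 := fun i => by exact_mod_cast (hspos i).ne'
  have hssq : ∀ i, ((s i : ℝ) : ℂ) * ((s i : ℝ) : ℂ) = ((hA.eigenvalues i : ℝ) : ℂ) := by
    intro i
    have : s i * s i = hA.eigenvalues i := Real.mul_self_sqrt (hpos i).le
    exact_mod_cast this
  set S : Matrix (Fin 2) (Fin 2) ℂ := diagonal (fun i => ((s i : ℝ) : ℂ)) with hS
  set Si : Matrix (Fin 2) (Fin 2) ℂ := diagonal (fun i => (((s i : ℝ) : ℂ))⁻¹) with hSi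
  have hSiS : Si * S = 1 := by
    rw [hSi, hS, diagonal_mul_diagonal]
    rw [← diagonal_one]
    congr 1
    funext i
    exact inv_mul_cancel₀ (hsne i)
  have hSiDSi : Si * diagonal (fun i => ((hA.eigenvalues i : ℝ) : ℂ)) * Si = 1 := by
    rw [hSi, diagonal_mul_diagonal, diagonal_mul_diagonal, ← diagonal_one]
    congr 1
    funext i
    rw [← hssq i]
    field_simp [hsne i]
  have hSistar : Siᴴ = Si := by
    rw [hSi, diagonal_conjTranspose]
    congr 1
    funext i
    simp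
  refine ⟨M * U * Si, star U, s, ?_, ?_, hspos, ?_⟩
  · -- unitarity of `W = M U S⁻¹`
    have h1 : (M * U * Si)ᴴ * (M * U * Si) = 1 := by
      rw [conjTranspose_mul, conjTranspose_mul, hSistar]
      have : Si * (Uᴴ * Mᴴ) * (M * U * Si) = Si * (Uᴴ * (Mᴴ * M) * U) * Si := by
        simp only [Matrix.mul_assoc]
      rw [this, hspec]
      have h2 : Uᴴ * (U * diagonal (fun i => ((hA.eigenvalues i : ℝ) : ℂ)) * star U) * U
          = diagonal (fun i => ((hA.eigenvalues i : ℝ) : ℂ)) := by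
        have e1 : Uᴴ = star U := rfl
        rw [e1]
        calc star U * (U * diagonal (fun i => ((hA.eigenvalues i : ℝ) : ℂ)) * star U) * U
            = (star U * U) * diagonal (fun i => ((hA.eigenvalues i : ℝ) : ℂ)) * (star U * U) := by
              simp only [Matrix.mul_assoc]
          _ = diagonal (fun i => ((hA.eigenvalues i : ℝ) : ℂ)) := by
              rw [hUU', Matrix.one_mul, Matrix.mul_one]
      rw [h2]
      exact hSiDSi
    exact mul_eq_one_comm.1 h1
  · -- unitarity of `V = Uᴴ`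
    have e1 : (star U)ᴴ = U := by
      change star (star U) = U
      exact star_star U
    rw [e1]
    exact hUU'
  · calc M = M * (U * star U) := by rw [hUU, Matrix.mul_one]
      _ = M * U * (Si * S) * star U := by rw [hSiS]; simp only [Matrix.mul_assoc, Matrix.one_mul]
      _ = M * U * Si * S * star U := by simp only [Matrix.mul_assoc]

/-- The swap matrix. -/
def swapM203 : Matrix (Fin 2) (Fin 2) ℂ := !![0, 1; 1, 0]

theorem swapM203_unitary : swapM203 * swapM203ᴴ = 1 := by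
  ext i j
  fin_cases i <;> fin_cases j <;>
    simp [swapM203, Matrix.mul_apply, Fin.sum_univ_two, Matrix.conjTranspose_apply]

theorem diag_eq_of203 (a b : ℂ) : diagonal ![a, b] = !![a, 0; 0, b] := by
  ext i j
  fin_cases i <;> fin_cases j <;> simp

theorem swap_diag_swap203 (a b : ℂ) :
    swapM203 * diagonal ![b, a] * swapM203 = diagonal ![a, b] := by
  rw [diag_eq_of203, diag_eq_of203]
  unfold swapM203
  rw [Matrix.mul_fin_two, Matrix.mul_fin_two]
  simp

theorem unitary_mul203 {A B : Matrix (Fin 2) (Fin 2) ℂ} (hA : A * Aᴴ = 1) (hB : B * Bᴴ = 1) :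
    (A * B) * (A * B)ᴴ = 1 := by
  rw [conjTranspose_mul]
  calc A * B * (Bᴴ * Aᴴ) = A * (B * Bᴴ) * Aᴴ := by simp only [Matrix.mul_assoc]
    _ = 1 := by rw [hB, Matrix.mul_one, hA]

/-- Ordered singular value decomposition. -/
theorem exists_svd_ordered203 (M : Matrix (Fin 2) (Fin 2) ℂ) (hM : M.det ≠ 0) :
    ∃ (W V : Matrix (Fin 2) (Fin 2) ℂ) (a b : ℝ), W * Wᴴ = 1 ∧ V * Vᴴ = 1 ∧
      0 < b ∧ b ≤ a ∧ M = W * diagonal ![((a : ℝ) : ℂ), ((b : ℝ) : ℂ)] * V := by
  obtain ⟨W, V, s, hW, hV, hs, hMeq⟩ := exists_svd203 M hM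
  have hdiag : diagonal (fun i => ((s i : ℝ) : ℂ)) = diagonal ![((s 0 : ℝ) : ℂ), ((s 1 : ℝ) : ℂ)] := by
    congr 1
    funext i
    fin_cases i <;> simp
  rw [hdiag] at hMeq
  rcases le_total (s 1) (s 0) with h | h
  · exact ⟨W, V, s 0, s 1, hW, hV, hs 1, h, hMeq⟩
  · refine ⟨W * swapM203, swapM203 * V, s 1, s 0, unitary_mul203 hW swapM203_unitary,
      unitary_mul203 swapM203_unitary hV, hs 0, h, ?_⟩
    rw [hMeq, ← swap_diag_swap203 ((s 0 : ℝ) : ℂ) ((s 1 : ℝ) : ℂ)]
    simp only [Matrix.mul_assoc]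

theorem torus_eq_diag203 (d : ℝ) :
    torus d = diagonal ![((Real.exp (d / 2) : ℝ) : ℂ), ((Real.exp (-(d / 2)) : ℝ) : ℂ)] := by
  rw [diag_eq_of203]
  rfl

theorem diag_mul_diag203 (a b c e : ℂ) :
    diagonal ![a, b] * diagonal ![c, e] = diagonal ![a * c, b * e] := by
  rw [diagonal_mul_diagonal]
  congr 1
  funext i
  fin_cases i <;> rfl

theorem diag_one203 : diagonal ![(1 : ℂ), 1] = 1 := by
  rw [← diagonal_one]
  congr 1
  funext i
  fin_cases i <;> rfl

theorem torus_mul_torus_neg203 (d : ℝ) : torus d * torus (-d) = 1 := by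
  rw [torus_eq_diag203, torus_eq_diag203, diag_mul_diag203, ← diag_one203]
  have h1 : ((Real.exp (d / 2) : ℝ) : ℂ) * ((Real.exp (-d / 2) : ℝ) : ℂ) = 1 := by
    rw [← Complex.ofReal_mul, ← Real.exp_add]
    have : d / 2 + -d / 2 = 0 := by ring
    rw [this, Real.exp_zero, Complex.ofReal_one]
  have h2 : ((Real.exp (-(d / 2)) : ℝ) : ℂ) * ((Real.exp (-(-d / 2)) : ℝ) : ℂ) = 1 := by
    rw [← Complex.ofReal_mul, ← Real.exp_add]
    have : -(d / 2) + -(-d / 2) = 0 := by ring
    rw [this, Real.exp_zero, Complex.ofReal_one]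
  rw [h1, h2]

theorem scalar_eq_diag203 (r : ℂ) : diagonal (fun _ : Fin 2 => r) = diagonal ![r, r] := by
  congr 1
  funext i
  fin_cases i <;> rfl

theorem torus_mul_scalar203 (a b : ℝ) (ha : 0 < a) (hb : 0 < b) :
    torus (Real.log a - Real.log b)
        * diagonal (fun _ : Fin 2 => ((Real.exp ((Real.log a + Real.log b) / 2) : ℝ) : ℂ))
      = diagonal ![((a : ℝ) : ℂ), ((b : ℝ) : ℂ)] := by
  have h1 : Real.exp ((Real.log a - Real.log b) / 2) * Real.exp ((Real.log a + Real.log b) / 2)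
      = a := by
    rw [← Real.exp_add]
    have : (Real.log a - Real.log b) / 2 + (Real.log a + Real.log b) / 2 = Real.log a := by ring
    rw [this, Real.exp_log ha]
  have h2 : Real.exp (-((Real.log a - Real.log b) / 2)) * Real.exp ((Real.log a + Real.log b) / 2)
      = b := by
    rw [← Real.exp_add]
    have : -((Real.log a - Real.log b) / 2) + (Real.log a + Real.log b) / 2 = Real.log b := by ring
    rw [this, Real.exp_log hb]
  rw [torus_eq_diag203, scalar_eq_diag203, diag_mul_diag203, ← Complex.ofReal_mul,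
    ← Complex.ofReal_mul, h1, h2]

theorem chD614_diag203 (a b : ℝ) (ha : 0 < a) (hb : 0 < b) :
    chD614 (diagonal ![((a : ℝ) : ℂ), ((b : ℝ) : ℂ)]) = Real.cosh (Real.log a - Real.log b) := by
  have hdet : (diagonal ![((a : ℝ) : ℂ), ((b : ℝ) : ℂ)]).det = ((a * b : ℝ) : ℂ) := by
    rw [det_diagonal, Fin.prod_univ_two]
    simp
  unfold chD614 hsq614
  rw [hdet]
  simp only [Matrix.diagonal_apply]
  have hna : ‖((a : ℝ) : ℂ)‖ = a := by rw [Complex.norm_real, Real.norm_of_nonneg ha.le]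
  have hnb : ‖((b : ℝ) : ℂ)‖ = b := by rw [Complex.norm_real, Real.norm_of_nonneg hb.le]
  have hnab : ‖((a * b : ℝ) : ℂ)‖ = a * b := by
    rw [Complex.norm_real, Real.norm_of_nonneg (mul_pos ha hb).le]
  simp only [Matrix.cons_val_zero, Matrix.cons_val_one, if_true, Fin.isValue]
  rw [hnab]
  have h01 : ((0 : Fin 2) = 1) = False := by simp
  have h10 : ((1 : Fin 2) = 0) = False := by simp
  simp only [h01, h10, if_false, norm_zero, hna, hnb]
  rw [Real.cosh_eq, Real.exp_sub, Real.exp_log ha, Real.exp_log hb, neg_sub, Real.exp_sub,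
    Real.exp_log ha, Real.exp_log hb]
  field_simp
  ring

/-- **AS.2.4a CARTAN**, VERBATIM the Prop `H315.CartanC`. -/
theorem cartanC203 : CartanC := by
  intro h
  have hdet : ((h : Matrix (Fin 2) (Fin 2) ℂ)).det ≠ 0 := by
    have := (Matrix.isUnit_iff_isUnit_det (h : Matrix (Fin 2) (Fin 2) ℂ)).1 h.isUnit
    exact this.ne_zero
  obtain ⟨W, V, a, b, hW, hV, hb, hab, hMeq⟩ := exists_svd_ordered203 _ hdet
  have ha : 0 < a := lt_of_lt_of_le hb hab
  set d : ℝ := Real.log a - Real.log b with hd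
  set r : ℝ := Real.exp ((Real.log a + Real.log b) / 2) with hr
  have hr0 : 0 < r := Real.exp_pos _
  have hrne : ((r : ℝ) : ℂ) ≠ 0 := by exact_mod_cast hr0.ne'
  have hW' : Wᴴ * W = 1 := mul_eq_one_comm.1 hW
  have hV' : Vᴴ * V = 1 := mul_eq_one_comm.1 hV
  let k₁ : GL (Fin 2) ℂ := ⟨W, Wᴴ, hW, hW'⟩
  let k₂ : GL (Fin 2) ℂ := ⟨V, Vᴴ, hV, hV'⟩
  have ht1 : torus d * torus (-d) = 1 := torus_mul_torus_neg203 d
  have ht2 : torus (-d) * torus d = 1 := by
    have := torus_mul_torus_neg203 (-d)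
    rwa [neg_neg] at this
  let t : GL (Fin 2) ℂ := ⟨torus d, torus (-d), ht1, ht2⟩
  have hz1 : diagonal (fun _ : Fin 2 => ((r : ℝ) : ℂ)) * diagonal (fun _ : Fin 2 => (((r : ℝ) : ℂ))⁻¹)
      = 1 := by
    rw [diagonal_mul_diagonal, ← diagonal_one]
    congr 1
    funext i
    exact mul_inv_cancel₀ hrne
  have hz2 : diagonal (fun _ : Fin 2 => (((r : ℝ) : ℂ))⁻¹) * diagonal (fun _ : Fin 2 => ((r : ℝ) : ℂ))
      = 1 := by
    rw [diagonal_mul_diagonal, ← diagonal_one]
    congr 1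
    funext i
    exact inv_mul_cancel₀ hrne
  let z : GL (Fin 2) ℂ := ⟨diagonal (fun _ : Fin 2 => ((r : ℝ) : ℂ)),
    diagonal (fun _ : Fin 2 => (((r : ℝ) : ℂ))⁻¹), hz1, hz2⟩
  have htz : torus d * diagonal (fun _ : Fin 2 => ((r : ℝ) : ℂ))
      = diagonal ![((a : ℝ) : ℂ), ((b : ℝ) : ℂ)] := torus_mul_scalar203 a b ha hb
  have hd0 : 0 ≤ d := by
    rw [hd, sub_nonneg]
    exact Real.log_le_log hb hab
  refine ⟨k₁, k₂, t, z, d, r, hW, hV, hd0, hr0, ?_, rfl, rfl, ?_⟩
  · -- `cosh d = chD614 h`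
    rw [hMeq, chD614_mul_unitary_right _ _ hV, chD614_mul_unitary_left _ _ hW,
      chD614_diag203 a b ha hb]
  · apply Units.ext
    change (h : Matrix (Fin 2) (Fin 2) ℂ)
      = W * torus d * diagonal (fun _ : Fin 2 => ((r : ℝ) : ℂ)) * V
    rw [hMeq, ← htz]
    simp only [Matrix.mul_assoc]

end Fermat.Agent.LT.T3.H203

end
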